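/-
P-S27, block G1-COUNT (helper20).  `SL(2, ℤ) = C₄ *_{C₂} C₆` as a universal property.

The amalgam structure is obtained from the abstract ping-pong lemma of
`Fermat/Agent/S41/Ihara/PingPong.lean`, played on the upper half plane with the two pieces
`{Re z ≥ 0}` and `{Re z < 0}`: the powers of `S` outside `±1` map the second piece into the first,
the powers of `U = S T` outside `±1` map the first piece into the second.

Main exports (namespace `Fermat.Agent.S27x.Count`):
* `U`, `orderOf_S`, `orderOf_U`, `mem_zpowers_S`, `mem_zpowers_U`, `mem_zpowers_neg_one`;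
* `pingPong_SL2Z : PingPongData (fun b => cond b ⟨S⟩ ⟨U⟩) ⟨-1⟩ pieces`;
* `existsUnique_hom_SL2Z` : for `s u : H` with `s ^ 4 = 1`, `u ^ 3 = s ^ 2` there is a unique
  homomorphism `F : SL(2, ℤ) →* H` with `F S = s`, `F U = u`.
-/
import Mathlib
import Fermat.Agent.S41.Ihara.PingPong
import Fermat.Agent.Gateway.A2.SL2Z

set_option autoImplicit false

namespace Fermat.Agent.S27x.Count

open scoped MatrixGroups
open ModularGroup UpperHalfPlane Fermat.Agent.S41.Ihara

/-- `U = S T`, the standard element of order `6`. -/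
def U : SL(2, ℤ) := S * T

theorem U_def : U = S * T := rfl

theorem S_sq : (S : SL(2, ℤ)) ^ 2 = -1 := by decide

theorem U_cube : U ^ 3 = -1 := by decide

theorem S_pow_four' : (S : SL(2, ℤ)) ^ 4 = 1 := by decide

theorem U_pow_six : U ^ 6 = 1 := by decide

theorem orderOf_S : orderOf (S : SL(2, ℤ)) = 4 := by
  rw [orderOf_eq_iff (by norm_num)]
  refine ⟨by decide, ?_⟩
  intro m hm hm0
  interval_cases m <;> decide

theorem orderOf_U : orderOf U = 6 := by
  rw [orderOf_eq_iff (by norm_num)]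
  refine ⟨by decide, ?_⟩
  intro m hm hm0
  interval_cases m <;> decide

theorem orderOf_neg_one : orderOf (-1 : SL(2, ℤ)) = 2 := by
  rw [orderOf_eq_iff (by norm_num)]
  refine ⟨by decide, ?_⟩
  intro m hm hm0
  interval_cases m; decide

/-- Reduction of an integer exponent modulo the order. -/
theorem exists_nat_lt_zpow_eq {G : Type*} [Group G] (g : G) {n : ℕ} (hn : orderOf g = n)
    (hn0 : 0 < n) (k : ℤ) : ∃ r : ℕ, r < n ∧ g ^ k = g ^ r := by
  refine ⟨(k % (n : ℤ)).toNat, ?_, ?_⟩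
  · have h1 : k % (n : ℤ) < n := Int.emod_lt_of_pos _ (by exact_mod_cast hn0)
    have h0 : 0 ≤ k % (n : ℤ) := Int.emod_nonneg _ (by exact_mod_cast hn0.ne')
    omega
  · have h0 : 0 ≤ k % (n : ℤ) := Int.emod_nonneg _ (by exact_mod_cast hn0.ne')
    rw [← zpow_natCast, Int.toNat_of_nonneg h0, ← hn, zpow_mod_orderOf]

theorem mem_zpowers_S {g : SL(2, ℤ)} :
    g ∈ Subgroup.zpowers (S : SL(2, ℤ)) ↔ g = 1 ∨ g = S ∨ g = -1 ∨ g = -S := by
  constructor
  · rintro ⟨k, rfl⟩
    obtain ⟨r, hr, h⟩ := exists_nat_lt_zpow_eq (S : SL(2, ℤ)) orderOf_S (by norm_num) k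
    show S ^ k = 1 ∨ S ^ k = S ∨ S ^ k = -1 ∨ S ^ k = -S
    rw [h]
    interval_cases r
    · exact Or.inl (by decide)
    · exact Or.inr (Or.inl (by decide))
    · exact Or.inr (Or.inr (Or.inl (by decide)))
    · exact Or.inr (Or.inr (Or.inr (by decide)))
  · rintro (rfl | rfl | rfl | rfl)
    · exact one_mem _
    · exact Subgroup.mem_zpowers _
    · exact ⟨2, by decide⟩
    · exact ⟨3, by decide⟩

theorem mem_zpowers_U {g : SL(2, ℤ)} :
    g ∈ Subgroup.zpowers U ↔
      g = 1 ∨ g = U ∨ g = U ^ 2 ∨ g = -1 ∨ g = -U ∨ g = -U ^ 2 := by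
  constructor
  · rintro ⟨k, rfl⟩
    obtain ⟨r, hr, h⟩ := exists_nat_lt_zpow_eq U orderOf_U (by norm_num) k
    show U ^ k = 1 ∨ U ^ k = U ∨ U ^ k = U ^ 2 ∨ U ^ k = -1 ∨ U ^ k = -U ∨ U ^ k = -U ^ 2
    rw [h]
    interval_cases r
    · exact Or.inl (by decide)
    · exact Or.inr (Or.inl (by decide))
    · exact Or.inr (Or.inr (Or.inl (by decide)))
    · exact Or.inr (Or.inr (Or.inr (Or.inl (by decide))))
    · exact Or.inr (Or.inr (Or.inr (Or.inr (Or.inl (by decide)))))
    · exact Or.inr (Or.inr (Or.inr (Or.inr (Or.inr (by decide)))))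
  · rintro (rfl | rfl | rfl | rfl | rfl | rfl)
    · exact one_mem _
    · exact Subgroup.mem_zpowers _
    · exact ⟨2, by decide⟩
    · exact ⟨3, by decide⟩
    · exact ⟨4, by decide⟩
    · exact ⟨5, by decide⟩

theorem mem_zpowers_neg_one {g : SL(2, ℤ)} :
    g ∈ Subgroup.zpowers (-1 : SL(2, ℤ)) ↔ g = 1 ∨ g = -1 := by
  constructor
  · rintro ⟨k, rfl⟩
    obtain ⟨r, hr, h⟩ := exists_nat_lt_zpow_eq (-1 : SL(2, ℤ)) orderOf_neg_one (by norm_num) k
    show (-1 : SL(2, ℤ)) ^ k = 1 ∨ (-1 : SL(2, ℤ)) ^ k = -1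
    rw [h]
    interval_cases r
    · exact Or.inl (by decide)
    · exact Or.inr (by decide)
  · rintro (rfl | rfl)
    · exact one_mem _
    · exact Subgroup.mem_zpowers _

/-! ### The action on the upper half plane -/

theorem coe_smul_entries (g : SL(2, ℤ)) (z : ℍ) :
    ((g • z : ℍ) : ℂ) = ((g 0 0 : ℂ) * z + (g 0 1 : ℂ)) / ((g 1 0 : ℂ) * z + (g 1 1 : ℂ)) := by
  rw [coe_specialLinearGroup_apply]
  simp

theorem coe_S_smul (z : ℍ) : ((S • z : ℍ) : ℂ) = (-(z : ℂ))⁻¹ := by
  rw [modular_S_smul]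

theorem coe_U_smul (z : ℍ) : ((U • z : ℍ) : ℂ) = -((z : ℂ) + 1)⁻¹ := by
  rw [coe_smul_entries, show U 0 0 = 0 from by decide, show U 0 1 = -1 from by decide,
    show U 1 0 = 1 from by decide, show U 1 1 = 1 from by decide]
  simp [neg_div]

theorem coe_U_sq_smul (z : ℍ) : (((U ^ 2) • z : ℍ) : ℂ) = -1 - (z : ℂ)⁻¹ := by
  have hz : (z : ℂ) ≠ 0 := ne_zero z
  rw [coe_smul_entries, show (U ^ 2) 0 0 = -1 from by decide, show (U ^ 2) 0 1 = -1 from by decide,
    show (U ^ 2) 1 0 = 1 from by decide, show (U ^ 2) 1 1 = 0 from by decide]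
  push_cast
  rw [add_zero, one_mul, div_eq_iff hz, sub_mul, inv_mul_cancel₀ hz]
  ring

theorem re_S_smul (z : ℍ) : (S • z : ℍ).re = -z.re / Complex.normSq z := by
  show ((S • z : ℍ) : ℂ).re = _
  rw [coe_S_smul, Complex.inv_re, Complex.normSq_neg]
  simp

theorem re_U_smul (z : ℍ) : (U • z : ℍ).re = -(z.re + 1) / Complex.normSq ((z : ℂ) + 1) := by
  show ((U • z : ℍ) : ℂ).re = _
  rw [coe_U_smul, Complex.neg_re, Complex.inv_re, neg_div]
  simp

theorem re_U_sq_smul (z : ℍ) : ((U ^ 2) • z : ℍ).re = -1 - z.re / Complex.normSq z := by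
  show (((U ^ 2) • z : ℍ) : ℂ).re = _
  rw [coe_U_sq_smul, Complex.sub_re, Complex.inv_re]
  simp

theorem normSq_coe_pos (z : ℍ) : 0 < Complex.normSq (z : ℂ) :=
  Complex.normSq_pos.mpr (ne_zero z)

theorem normSq_coe_add_one_pos (z : ℍ) : 0 < Complex.normSq ((z : ℂ) + 1) := by
  apply Complex.normSq_pos.mpr
  intro h
  have := congrArg Complex.im h
  simp at this
  exact z.im_ne_zero this

/-- The two pieces of the ping-pong table: `true ↦ {Re z ≥ 0}`, `false ↦ {Re z < 0}`. -/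
def pieces : Bool → Set ℍ := fun b => cond b {z : ℍ | 0 ≤ z.re} {z : ℍ | z.re < 0}

theorem mem_pieces_true {z : ℍ} : z ∈ pieces true ↔ 0 ≤ z.re := Iff.rfl

theorem mem_pieces_false {z : ℍ} : z ∈ pieces false ↔ z.re < 0 := Iff.rfl

theorem S_smul_mem {z : ℍ} (hz : z ∈ pieces false) : S • z ∈ pieces true := by
  rw [mem_pieces_false] at hz
  rw [mem_pieces_true, re_S_smul]
  exact div_nonneg (by linarith) (normSq_coe_pos z).le

theorem U_smul_mem {z : ℍ} (hz : z ∈ pieces true) : U • z ∈ pieces false := by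
  rw [mem_pieces_true] at hz
  rw [mem_pieces_false, re_U_smul]
  exact div_neg_of_neg_of_pos (by linarith) (normSq_coe_add_one_pos z)

theorem U_sq_smul_mem {z : ℍ} (hz : z ∈ pieces true) : (U ^ 2) • z ∈ pieces false := by
  rw [mem_pieces_true] at hz
  rw [mem_pieces_false, re_U_sq_smul]
  have : 0 ≤ z.re / Complex.normSq z := div_nonneg hz (normSq_coe_pos z).le
  linarith

/-- A point of the left half plane that stays there under `U` and `U ^ 2`. -/
noncomputable def stayPt : ℍ := ⟨⟨-1 / 2, 1⟩, by norm_num⟩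

theorem stayPt_re : stayPt.re = -1 / 2 := rfl

theorem normSq_stayPt : Complex.normSq (stayPt : ℂ) = 5 / 4 := by
  show Complex.normSq ⟨-1 / 2, 1⟩ = 5 / 4
  rw [Complex.normSq_mk]
  norm_num

theorem stayPt_mem : stayPt ∈ pieces false := by
  rw [mem_pieces_false, stayPt_re]
  norm_num

theorem U_smul_stayPt_mem : U • stayPt ∈ pieces false := by
  rw [mem_pieces_false, re_U_smul, stayPt_re]
  exact div_neg_of_neg_of_pos (by norm_num) (normSq_coe_add_one_pos _)

theorem U_sq_smul_stayPt_mem : (U ^ 2) • stayPt ∈ pieces false := by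
  rw [mem_pieces_false, re_U_sq_smul, stayPt_re, normSq_stayPt]
  norm_num

theorem I_mem : UpperHalfPlane.I ∈ pieces true := by
  rw [mem_pieces_true]
  simp

theorem S_smul_I_mem : S • UpperHalfPlane.I ∈ pieces true := by
  rw [mem_pieces_true, re_S_smul]
  simp

/-- **Ping-pong table for `SL(2, ℤ)`.** -/
theorem pingPong_SL2Z :
    PingPongData (fun b => cond b (Subgroup.zpowers (S : SL(2, ℤ))) (Subgroup.zpowers U))
      (Subgroup.zpowers (-1 : SL(2, ℤ))) pieces where
  le := by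
    intro i g hg
    rcases mem_zpowers_neg_one.mp hg with rfl | rfl
    · exact one_mem _
    · cases i
      · exact mem_zpowers_U.mpr (Or.inr (Or.inr (Or.inr (Or.inl rfl))))
      · exact mem_zpowers_S.mpr (Or.inr (Or.inr (Or.inl rfl)))
  move := by
    intro i g hg hgC x hx
    cases i
    · -- `g` a power of `U`, `x` in the right half plane
      have hx' : x ∈ pieces true := hx
      show g • x ∈ pieces false
      rcases mem_zpowers_U.mp hg with rfl | rfl | rfl | rfl | rfl | rfl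
      · exact absurd (one_mem _) hgC
      · exact U_smul_mem hx'
      · exact U_sq_smul_mem hx'
      · exact absurd (Subgroup.mem_zpowers _) hgC
      · rw [SL_neg_smul]; exact U_smul_mem hx'
      · rw [SL_neg_smul]; exact U_sq_smul_mem hx'
    · have hx' : x ∈ pieces false := hx
      show g • x ∈ pieces true
      rcases mem_zpowers_S.mp hg with rfl | rfl | rfl | rfl
      · exact absurd (one_mem _) hgC
      · exact S_smul_mem hx'
      · exact absurd (Subgroup.mem_zpowers _) hgC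
      · rw [SL_neg_smul]; exact S_smul_mem hx'
  stay := by
    intro i g hg hgC
    cases i
    · refine ⟨stayPt, stayPt_mem, ?_⟩
      show g • stayPt ∈ pieces false
      rcases mem_zpowers_U.mp hg with rfl | rfl | rfl | rfl | rfl | rfl
      · exact absurd (one_mem _) hgC
      · exact U_smul_stayPt_mem
      · exact U_sq_smul_stayPt_mem
      · exact absurd (Subgroup.mem_zpowers _) hgC
      · rw [SL_neg_smul]; exact U_smul_stayPt_mem
      · rw [SL_neg_smul]; exact U_sq_smul_stayPt_mem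
    · refine ⟨UpperHalfPlane.I, I_mem, ?_⟩
      show g • UpperHalfPlane.I ∈ pieces true
      rcases mem_zpowers_S.mp hg with rfl | rfl | rfl | rfl
      · exact absurd (one_mem _) hgC
      · exact S_smul_I_mem
      · exact absurd (Subgroup.mem_zpowers _) hgC
      · rw [SL_neg_smul]; exact S_smul_I_mem
  base := by
    intro i c hc x hx
    rcases mem_zpowers_neg_one.mp hc with rfl | rfl
    · rwa [one_smul]
    · rwa [SL_neg_smul, one_smul]
  disj := by
    rw [Set.disjoint_left]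
    intro z h1 h2
    rw [mem_pieces_true] at h1
    rw [mem_pieces_false] at h2
    linarith
  nonempty := by
    intro i
    cases i
    · exact ⟨stayPt, stayPt_mem⟩
    · exact ⟨UpperHalfPlane.I, I_mem⟩

/-! ### The universal property -/

theorem sup_zpowers_eq_top :
    Subgroup.zpowers (S : SL(2, ℤ)) ⊔ Subgroup.zpowers U = ⊤ := by
  have h := Fermat.Agent.Gateway.A2.closure_S_ST
  rw [Set.insert_eq, Subgroup.closure_union, ← Subgroup.zpowers_eq_closure,
    ← Subgroup.zpowers_eq_closure] at h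
  exact h

/-- Homomorphisms out of a cyclic subgroup. -/
theorem exists_hom_zpowers {G H : Type*} [Group G] [Group H] (g : G) (h : H)
    (hh : h ^ orderOf g = 1) :
    ∃ f : Subgroup.zpowers g →* H, ∀ (k : ℤ) (hk : g ^ k ∈ Subgroup.zpowers g),
      f ⟨g ^ k, hk⟩ = h ^ k := by
  have key : ∀ a b : ℤ, g ^ a = g ^ b → h ^ a = h ^ b := by
    intro a b hab
    have h1 : g ^ (a - b) = 1 := by rw [zpow_sub, hab, mul_inv_cancel]
    obtain ⟨c, hc⟩ := (orderOf_dvd_iff_zpow_eq_one).mpr h1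
    have h2 : h ^ (a - b) = 1 := by
      rw [hc, zpow_mul, zpow_natCast, hh, one_zpow]
    rw [zpow_sub, mul_inv_eq_one] at h2
    exact h2
  have hch : ∀ x : Subgroup.zpowers g, g ^ (Classical.choose (Subgroup.mem_zpowers_iff.mp x.2))
      = (x : G) := fun x => Classical.choose_spec (Subgroup.mem_zpowers_iff.mp x.2)
  refine ⟨{ toFun := fun x => h ^ (Classical.choose (Subgroup.mem_zpowers_iff.mp x.2))
            map_one' := ?_
            map_mul' := ?_ }, ?_⟩
  · rw [← zpow_zero h]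
    apply key
    rw [hch, zpow_zero]
    rfl
  · intro x y
    rw [← zpow_add]
    apply key
    rw [hch, zpow_add, hch, hch]
    rfl
  · intro k hk
    apply key
    exact hch ⟨g ^ k, hk⟩

/-- **Universal property of `SL(2, ℤ) = C₄ *_{C₂} C₆`.** -/
theorem existsUnique_hom_SL2Z {H : Type*} [Group H] (s u : H) (hs : s ^ 4 = 1)
    (hsu : u ^ 3 = s ^ 2) : ∃! F : SL(2, ℤ) →* H, F S = s ∧ F U = u := by
  have hu : u ^ 6 = 1 := by
    rw [show 6 = 3 * 2 from rfl, pow_mul, hsu, ← pow_mul]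
    exact hs
  obtain ⟨f, hf⟩ := exists_hom_zpowers (S : SL(2, ℤ)) s (by rw [orderOf_S]; exact hs)
  obtain ⟨g, hg⟩ := exists_hom_zpowers U u (by rw [orderOf_U]; exact hu)
  have hfS : ∀ (k : ℕ) (hk : (S : SL(2, ℤ)) ^ k ∈ Subgroup.zpowers (S : SL(2, ℤ))),
      f ⟨S ^ k, hk⟩ = s ^ k := by
    intro k hk
    have := hf k (by rw [zpow_natCast]; exact hk)
    simpa using this
  have hgU : ∀ (k : ℕ) (hk : U ^ k ∈ Subgroup.zpowers U), g ⟨U ^ k, hk⟩ = u ^ k := by
    intro k hk
    have := hg k (by rw [zpow_natCast]; exact hk)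
    simpa using this
  have hfg : ∀ (c : SL(2, ℤ)) (hc : c ∈ Subgroup.zpowers (-1 : SL(2, ℤ))),
      f ⟨c, pingPong_SL2Z.le true hc⟩ = g ⟨c, pingPong_SL2Z.le false hc⟩ := by
    intro c hc
    rcases mem_zpowers_neg_one.mp hc with rfl | rfl
    · exact (map_one f).trans (map_one g).symm
    · have e1 : (⟨-1, pingPong_SL2Z.le true hc⟩ : Subgroup.zpowers (S : SL(2, ℤ))) =
          ⟨S ^ 2, Subgroup.npow_mem_zpowers S 2⟩ := Subtype.ext S_sq.symm
      have e2 : (⟨-1, pingPong_SL2Z.le false hc⟩ : Subgroup.zpowers U) =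
          ⟨U ^ 3, Subgroup.npow_mem_zpowers U 3⟩ := Subtype.ext U_cube.symm
      rw [e1, e2, hfS 2 (Subgroup.npow_mem_zpowers S 2), hgU 3 (Subgroup.npow_mem_zpowers U 3),
        hsu]
  obtain ⟨F', ⟨hF'f, hF'g⟩, huniq⟩ := existsUnique_hom₂ pingPong_SL2Z f g hfg
  -- transport along `⟨S⟩ ⊔ ⟨U⟩ = ⊤`
  have hmem : ∀ x : SL(2, ℤ), x ∈ Subgroup.zpowers (S : SL(2, ℤ)) ⊔ Subgroup.zpowers U := by
    intro x
    rw [sup_zpowers_eq_top]
    trivial
  let ι : SL(2, ℤ) →* ↥(Subgroup.zpowers (S : SL(2, ℤ)) ⊔ Subgroup.zpowers U) :=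
    { toFun := fun x => ⟨x, hmem x⟩
      map_one' := rfl
      map_mul' := fun _ _ => rfl }
  refine ⟨F'.comp ι, ⟨?_, ?_⟩, ?_⟩
  · have h1 := hF'f ⟨S, Subgroup.mem_zpowers _⟩
    have h2 := hfS 1 (by rw [pow_one]; exact Subgroup.mem_zpowers _)
    simp only [pow_one] at h2
    rw [h2] at h1
    exact h1
  · have h1 := hF'g ⟨U, Subgroup.mem_zpowers _⟩
    have h2 := hgU 1 (by rw [pow_one]; exact Subgroup.mem_zpowers _)
    simp only [pow_one] at h2
    rw [h2] at h1
    exact h1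
  · rintro F₂ ⟨hF₂S, hF₂U⟩
    have h3 : F₂.comp (Subgroup.subtype _) = F' := by
      apply huniq
      constructor
      · rintro ⟨a, ha⟩
        obtain ⟨k, rfl⟩ := Subgroup.mem_zpowers_iff.mp ha
        show F₂ (S ^ k) = f ⟨S ^ k, ha⟩
        rw [hf k ha, map_zpow, hF₂S]
      · rintro ⟨b, hb⟩
        obtain ⟨k, rfl⟩ := Subgroup.mem_zpowers_iff.mp hb
        show F₂ (U ^ k) = g ⟨U ^ k, hb⟩
        rw [hg k hb, map_zpow, hF₂U]
    ext x
    rw [← h3]
    rfl

end Fermat.Agent.S27x.Count
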