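/-
P-S27, block G1-COUNT (helper20).  Cocycles on `SL(2, ℤ)` with prescribed values at `S` and `U`.

Let `Γ ≤ SL(2, ℤ)` contain `-1`, `X = SL(2, ℤ) ⧸ Γ`, `M = X → K`.  For `a ∈ perKer S`,
`b ∈ perKer U` (functions with vanishing orbit sums) there is a cocycle `c : SL(2, ℤ) → M`
(`c (g h) = c g + g • c h`) with `c S = a`, `c U = b`.  It is obtained from the universal property
of the amalgam `SL(2, ℤ) = C₄ *_{C₂} C₆` applied to the group of affine permutations
`m ↦ g • m + a` of `M`.
-/
import Mathlib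
import Fermat.Agent.S27x.Count.SL2ZAmalgam
import Fermat.Agent.Gateway.A2.Bound

set_option autoImplicit false

noncomputable section

namespace Fermat.Agent.S27x.Count

open scoped MatrixGroups
open ModularGroup Fermat.Agent.Gateway.A2

section Periodic

variable {G : Type*} [Group G] {X : Type*} [MulAction G X] (K : Type*) [Field K]

theorem per_dvd_of_pow_smul_eq {g : G} {y : X} {k : ℕ} (h : g ^ k • y = y) : per g y ∣ k := by
  apply Function.IsPeriodicPt.minimalPeriod_dvd
  show (fun x : X => g • x)^[k] y = y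
  rw [smul_iterate]
  exact h

theorem normOp_apply_apply (g : G) (d : ℕ) (a : X → K) (y : X) :
    normOp K g d a y = ∑ i ∈ Finset.range d, a ((g ^ i)⁻¹ • y) := by
  rw [normOp_apply, Finset.sum_apply]
  rfl

theorem sum_range_mul_of_periodic {A : Type*} [AddCommMonoid A] (f : ℕ → A) (p : ℕ)
    (hf : ∀ i, f (i + p) = f i) (q : ℕ) :
    ∑ i ∈ Finset.range (p * q), f i = q • ∑ i ∈ Finset.range p, f i := by
  induction q with
  | zero => simp
  | succ q ih =>
    have hper : ∀ j i, f (p * j + i) = f i := by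
      intro j
      induction j with
      | zero => intro i; simp
      | succ j ihj =>
        intro i
        rw [show p * (j + 1) + i = (p * j + i) + p by ring, hf, ihj]
    rw [Nat.mul_succ, Finset.sum_range_add, ih, succ_nsmul]
    congr 1
    exact Finset.sum_congr rfl fun i _ => hper q i

/-- **Orbit sums over a multiple of the period vanish** for functions in `perKer`. -/
theorem normOp_apply_eq_zero_of_mem_perKer {g : G} {a : X → K} (ha : a ∈ perKer K g) {k : ℕ}
    {y : X} (hy : g ^ k • y = y) : normOp K g k a y = 0 := by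
  obtain ⟨q, rfl⟩ := per_dvd_of_pow_smul_eq hy
  rw [normOp_apply_apply]
  have hf : ∀ i, a ((g ^ (i + per g y))⁻¹ • y) = a ((g ^ i)⁻¹ • y) := by
    intro i
    have h1 : (g ^ per g y)⁻¹ • y = y := by
      rw [inv_smul_eq_iff]
      exact (pow_per_smul g y).symm
    rw [add_comm i, pow_add, mul_inv_rev, mul_smul, h1]
  rw [sum_range_mul_of_periodic (fun i => a ((g ^ i)⁻¹ • y)) (per g y) hf q,
    ← normOp_apply_apply, ha y, smul_zero]

theorem normOp_eq_zero_of_mem_perKer {g : G} {a : X → K} (ha : a ∈ perKer K g) {k : ℕ}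
    (hk : ∀ y : X, g ^ k • y = y) : normOp K g k a = 0 := by
  funext y
  exact normOp_apply_eq_zero_of_mem_perKer K ha (hk y)

theorem normOp_succ (g : G) (n : ℕ) (a : X → K) :
    normOp K g (n + 1) a = normOp K g n a + act K (g ^ n) a := by
  rw [normOp_apply, normOp_apply, Finset.sum_range_succ]

end Periodic

section Affine

variable {G : Type*} [Group G] {X : Type*} [MulAction G X] (K : Type*) [Field K]

/-- The affine permutation `m ↦ g • m + a` of the function space. -/
def affPerm (g : G) (a : X → K) : Equiv.Perm (X → K) where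
  toFun m := act K g m + a
  invFun m := act K g⁻¹ (m - a)
  left_inv m := by
    show act K g⁻¹ (act K g m + a - a) = m
    rw [add_sub_cancel_right, act_inv_act]
  right_inv m := by
    show act K g (act K g⁻¹ (m - a)) + a = m
    rw [act_act_inv, sub_add_cancel]

@[simp] theorem affPerm_apply (g : G) (a m : X → K) : affPerm K g a m = act K g m + a := rfl

theorem affPerm_mul (g h : G) (a b : X → K) :
    affPerm K g a * affPerm K h b = affPerm K (g * h) (act K g b + a) := by
  ext m : 1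
  rw [Equiv.Perm.mul_apply, affPerm_apply, affPerm_apply, affPerm_apply, map_add, act_mul,
    add_assoc]

theorem affPerm_one_zero : affPerm K (1 : G) (0 : X → K) = 1 := by
  ext m : 1
  rw [affPerm_apply, act_one, add_zero, Equiv.Perm.one_apply]

theorem affPerm_pow (g : G) (a : X → K) (n : ℕ) :
    affPerm K g a ^ n = affPerm K (g ^ n) (normOp K g n a) := by
  induction n with
  | zero =>
    rw [pow_zero, pow_zero]
    have : normOp K g 0 a = 0 := by rw [normOp_apply]; simp
    rw [this, affPerm_one_zero]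
  | succ n ih =>
    rw [pow_succ, ih, affPerm_mul, pow_succ, normOp_succ, add_comm]

end Affine

section CocycleGeneral

variable {G : Type*} [Group G] {X : Type*} [MulAction G X] (K : Type*) [Field K]

/-- A cocycle of `G` with values in the functions on `X`. -/
structure IsCoc (c : G → (X → K)) : Prop where
  map_mul : ∀ g h : G, c (g * h) = c g + act K g (c h)

variable {K}

namespace IsCoc

variable {c : G → (X → K)} (hc : IsCoc K c)

include hc

theorem map_one : c 1 = 0 := by
  have h := hc.map_mul 1 1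
  rw [mul_one, act_one] at h
  exact left_eq_add.mp h

theorem map_inv (g : G) : c g⁻¹ = -act K g⁻¹ (c g) := by
  have h := hc.map_mul g⁻¹ g
  rw [inv_mul_cancel, hc.map_one] at h
  exact eq_neg_of_add_eq_zero_left h.symm

theorem map_pow (g : G) (k : ℕ) : c (g ^ k) = normOp K g k (c g) := by
  induction k with
  | zero =>
    rw [pow_zero, hc.map_one, normOp_apply]
    simp
  | succ k ih =>
    rw [pow_succ, hc.map_mul, ih, normOp_succ]

/-- The value of a cocycle on a conjugate, at a point fixed by the conjugate. -/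
theorem conj_apply (g t : G) {x : X} (hx : (g * t * g⁻¹) • x = x) :
    c (g * t * g⁻¹) x = c t (g⁻¹ • x) := by
  rw [hc.map_mul, hc.map_mul, hc.map_inv]
  simp only [Pi.add_apply, act_apply, map_neg, Pi.neg_apply, inv_inv]
  have h1 : g • (g * t)⁻¹ • x = x := by
    have h2 : (g * t)⁻¹ • x = g⁻¹ • x := by
      have h3 : (g * t)⁻¹ • x = (g * t)⁻¹ • ((g * t * g⁻¹) • x) := by rw [hx]
      rw [h3, ← mul_smul, inv_mul_cancel_left]
    rw [h2, smul_inv_smul]
  rw [h1]
  ring

end IsCoc

end CocycleGeneral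

section ShapiroInverse

variable {G : Type*} [Group G] (Γ : Subgroup G) {K : Type*} [Field K]

theorem smul_basePt_of_mem {γ : G} (hγ : γ ∈ Γ) : γ • basePt Γ = basePt Γ := by
  rw [smul_basePt, basePt, QuotientGroup.eq, mul_one]
  exact Γ.inv_mem hγ

theorem sec_smul_basePt (y : G ⧸ Γ) : sec Γ y • basePt Γ = y := by
  rw [smul_basePt, mk_sec]

variable {Γ} {c : G → ((G ⧸ Γ) → K)}

/-- The character of `Γ` attached to a cocycle: evaluation at the base point. -/
def charOf (hc : IsCoc K c) : Additive Γ →+ K where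
  toFun γ := c ((Additive.toMul γ : Γ) : G) (basePt Γ)
  map_zero' := by
    show c ((1 : Γ) : G) (basePt Γ) = 0
    rw [Subgroup.coe_one, hc.map_one]
    rfl
  map_add' := by
    intro γ δ
    show c (((Additive.toMul γ * Additive.toMul δ : Γ)) : G) (basePt Γ) = _
    rw [Subgroup.coe_mul, hc.map_mul, Pi.add_apply, act_apply]
    have h1 : ((Additive.toMul γ : Γ) : G)⁻¹ • basePt Γ = basePt Γ :=
      smul_basePt_of_mem Γ (Γ.inv_mem (Additive.toMul γ).2)
    rw [h1]

theorem charOf_apply (hc : IsCoc K c) (γ : Γ) :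
    charOf hc (Additive.ofMul γ) = c (γ : G) (basePt Γ) := rfl

/-- The shift `n y = c (sec y) y`. -/
def shiftOf (c : G → ((G ⧸ Γ) → K)) : (G ⧸ Γ) → K := fun y => c (sec Γ y) y

/-- **Shapiro's lemma, inverse direction**: a cocycle is the Shapiro cocycle of its character up
to the coboundary of `shiftOf`. -/
theorem coc_charOf (hc : IsCoc K c) (g : G) :
    coc (charOf hc) g = c g + opA K g (shiftOf c) := by
  funext y
  rw [coc_apply, charOf_apply]
  show c ((sec Γ (g • g⁻¹ • y))⁻¹ * g * sec Γ (g⁻¹ • y)) (basePt Γ) = _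
  rw [smul_inv_smul, hc.map_mul, hc.map_mul, hc.map_inv]
  simp only [Pi.add_apply, Pi.neg_apply, act_apply, opA_apply, Pi.sub_apply, inv_inv,
    mul_inv_rev, mul_smul, sec_smul_basePt, shiftOf]
  ring

theorem charOf_mem_parab (hc : IsCoc K c) {t : G} (ht : c t ∈ perKer K t (X := G ⧸ Γ)) :
    charOf hc ∈ parab Γ K t := by
  intro g k h
  rw [charOf_apply]
  have hfix : (g * t ^ k * g⁻¹) • basePt Γ = basePt Γ := smul_basePt_of_mem Γ h
  show c (g * t ^ k * g⁻¹) (basePt Γ) = 0
  rw [hc.conj_apply g (t ^ k) hfix, hc.map_pow]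
  apply normOp_apply_eq_zero_of_mem_perKer K ht
  have h1 : g⁻¹ • ((g * t ^ k * g⁻¹) • basePt Γ) = g⁻¹ • basePt Γ := by rw [hfix]
  rw [← mul_smul, ← mul_assoc, ← mul_assoc, inv_mul_cancel, one_mul, mul_smul] at h1
  exact h1

/-- **Surjectivity of `thetaMap` onto cocycle values.** -/
theorem exists_thetaMap_eq [Finite (G ⧸ Γ)] (hc : IsCoc K c) (s t : G)
    (hs : c s ∈ perKer K s (X := G ⧸ Γ)) (hu : c (s * t) ∈ perKer K (s * t) (X := G ⧸ Γ))
    (ht : c t ∈ perKer K t (X := G ⧸ Γ)) :
    ∃ e : parab3 Γ K s t × M0 Γ K, thetaMap Γ K s t e = (c s, c (s * t)) := by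
  have hφ : charOf hc ∈ parab3 Γ K s t := by
    rw [mem_parab3]
    exact ⟨⟨charOf_mem_parab hc hs, charOf_mem_parab hc hu⟩, charOf_mem_parab hc ht⟩
  set n := shiftOf c with hn
  set m : (G ⧸ Γ) → K := fun y => n (basePt Γ) - n y with hm
  have hm0 : m ∈ M0 Γ K := by
    rw [mem_M0, hm]
    simp
  have hop : ∀ g : G, opA K g m = -opA K g n := by
    intro g
    funext y
    simp only [opA_apply, Pi.sub_apply, act_apply, hm, Pi.neg_apply]
    ring
  refine ⟨(⟨charOf hc, hφ⟩, ⟨m, hm0⟩), ?_⟩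
  rw [thetaMap_apply]
  simp only [coc_charOf, hop]
  ext y <;> simp only [Pi.add_apply, Pi.neg_apply] <;> ring

end ShapiroInverse

section SL2Z

variable (Γ : Subgroup SL(2, ℤ)) (K : Type*) [Field K]

theorem neg_one_smul_coset (hneg : (-1 : SL(2, ℤ)) ∈ Γ) (y : SL(2, ℤ) ⧸ Γ) :
    (-1 : SL(2, ℤ)) • y = y := by
  induction y using QuotientGroup.induction_on with
  | H g =>
    show (((-1 : SL(2, ℤ)) * g : SL(2, ℤ)) : SL(2, ℤ) ⧸ Γ) = (g : SL(2, ℤ) ⧸ Γ)
    rw [eq_comm, QuotientGroup.eq]
    have : g⁻¹ * (-1 * g) = -1 := by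
      rw [neg_mul, one_mul, mul_neg, inv_mul_cancel]
    rw [this]
    exact hneg

variable {Γ K}

theorem affPerm_inv {G : Type*} [Group G] {X : Type*} [MulAction G X] (g : G) (a : X → K) :
    (affPerm K g a)⁻¹ = affPerm K g⁻¹ (-act K g⁻¹ a) := by
  rw [inv_eq_iff_mul_eq_one, affPerm_mul, mul_inv_cancel, map_neg, act_act_inv, neg_add_cancel,
    affPerm_one_zero]

/-- A homomorphism into the affine permutations is pointwise affine. -/
theorem hom_eq_affPerm {a b : (SL(2, ℤ) ⧸ Γ) → K}
    (F : SL(2, ℤ) →* Equiv.Perm ((SL(2, ℤ) ⧸ Γ) → K)) (hS : F S = affPerm K S a)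
    (hU : F U = affPerm K U b) (g : SL(2, ℤ)) : F g = affPerm K g (F g 0) := by
  have key : ∃ c0, F g = affPerm K g c0 := by
    have hg : g ∈ Subgroup.closure ({S, S * T} : Set SL(2, ℤ)) := by
      rw [closure_S_ST]
      trivial
    induction hg using Subgroup.closure_induction with
    | mem x hx =>
      rcases hx with rfl | hx
      · exact ⟨a, hS⟩
      · rw [Set.mem_singleton_iff] at hx
        subst hx
        exact ⟨b, hU⟩
    | one => exact ⟨0, by rw [map_one, affPerm_one_zero]⟩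
    | mul x y _ _ hx hy =>
      obtain ⟨cx, hcx⟩ := hx
      obtain ⟨cy, hcy⟩ := hy
      exact ⟨_, by rw [map_mul, hcx, hcy, affPerm_mul]⟩
    | inv x _ hx =>
      obtain ⟨cx, hcx⟩ := hx
      exact ⟨_, by rw [map_inv, hcx, affPerm_inv]⟩
  obtain ⟨c0, hc0⟩ := key
  have : F g 0 = c0 := by rw [hc0, affPerm_apply, map_zero, zero_add]
  rw [this, hc0]

/-- **Existence of cocycles with prescribed values at `S` and `U`.** -/
theorem exists_isCoc (hneg : (-1 : SL(2, ℤ)) ∈ Γ) {a b : (SL(2, ℤ) ⧸ Γ) → K}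
    (ha : a ∈ perKer K (S : SL(2, ℤ))) (hb : b ∈ perKer K U) :
    ∃ c : SL(2, ℤ) → ((SL(2, ℤ) ⧸ Γ) → K), IsCoc K c ∧ c S = a ∧ c U = b := by
  have hS2 : ∀ y : SL(2, ℤ) ⧸ Γ, (S : SL(2, ℤ)) ^ 2 • y = y := by
    intro y
    rw [S_sq]
    exact neg_one_smul_coset Γ hneg y
  have hU3 : ∀ y : SL(2, ℤ) ⧸ Γ, U ^ 3 • y = y := by
    intro y
    rw [U_cube]
    exact neg_one_smul_coset Γ hneg y
  have hS4 : ∀ y : SL(2, ℤ) ⧸ Γ, (S : SL(2, ℤ)) ^ 4 • y = y := by
    intro y
    rw [S_pow_four', one_smul]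
  have h1 : affPerm K (S : SL(2, ℤ)) a ^ 4 = 1 := by
    rw [affPerm_pow, normOp_eq_zero_of_mem_perKer K ha hS4, S_pow_four', affPerm_one_zero]
  have h2 : affPerm K U b ^ 3 = affPerm K (S : SL(2, ℤ)) a ^ 2 := by
    rw [affPerm_pow, affPerm_pow, normOp_eq_zero_of_mem_perKer K ha hS2,
      normOp_eq_zero_of_mem_perKer K hb hU3, S_sq, U_cube]
  obtain ⟨F, ⟨hFS, hFU⟩, -⟩ := existsUnique_hom_SL2Z _ _ h1 h2
  have hF := hom_eq_affPerm F hFS hFU
  refine ⟨fun g => F g 0, ⟨?_⟩, ?_, ?_⟩
  · intro g h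
    show F (g * h) 0 = F g 0 + act K g (F h 0)
    rw [map_mul, Equiv.Perm.mul_apply]
    conv_lhs => rw [hF g, affPerm_apply]
    rw [add_comm]
  · show F S 0 = a
    rw [hFS, affPerm_apply, map_zero, zero_add]
  · show F U 0 = b
    rw [hFU, affPerm_apply, map_zero, zero_add]

end SL2Z

end Fermat.Agent.S27x.Count
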