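/-
P-S27, block G1-COUNT (helper20).  The lower bound for the parabolic cohomology of a finite index
subgroup `Γ ∋ -1` of `SL(2, ℤ)`, over any field `K`:

  `finrank K (parab3 Γ K S T) + #orb(S) + #orb(S T) + #orb(T) = #(SL(2, ℤ) ⧸ Γ) + 2`.

The inequality `≤` is `A2.finrank_parab3_add_le`; the inequality `≥` uses the cocycles of
`Count/Cocycle.lean`.
-/
import Mathlib
import Fermat.Agent.S27x.Count.Cocycle

set_option autoImplicit false

noncomputable section

namespace Fermat.Agent.S27x.Count

open scoped MatrixGroups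
open ModularGroup Fermat.Agent.Gateway.A2 Module

section LinAlg

variable {K : Type*} [Field K] {M : Type*} [AddCommGroup M] [Module K M] [FiniteDimensional K M]
variable {E : Type*} [AddCommGroup E] [Module K E]

/-- Abstract dimension count, the converse of `A2.finrank_add_le_of_injective_of_le_sup`. -/
theorem finrank_add_le_of_forall_exists
    (Ds Du R Z₀ : Submodule K M) (L : M × M →ₗ[K] M)
    (hZ : ∀ a ∈ Ds, ∀ b ∈ Du, L (a, b) ∈ Z₀) (hR : R ≤ Z₀)
    (θ : E →ₗ[K] M × M) (hθ : Function.Injective θ) [Module.Finite K E]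
    (hsurj : ∀ a ∈ Ds, ∀ b ∈ Du, L (a, b) ∈ R → ∃ e, θ e = (a, b)) :
    finrank K Ds + finrank K Du + finrank K R ≤ finrank K E + finrank K Z₀ := by
  classical
  let Ξ : ((Ds × Du) × R) →ₗ[K] M :=
    (L.comp (LinearMap.prodMap Ds.subtype Du.subtype)).comp (LinearMap.fst K (Ds × Du) R)
      - R.subtype.comp (LinearMap.snd K (Ds × Du) R)
  have hΞ : ∀ p : (Ds × Du) × R, Ξ p = L ((p.1.1 : M), (p.1.2 : M)) - (p.2 : M) := fun p => rfl
  -- the range of `Ξ` lies in `Z₀`
  have hrange : LinearMap.range Ξ ≤ Z₀ := by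
    rintro _ ⟨p, rfl⟩
    rw [hΞ]
    exact Z₀.sub_mem (hZ _ p.1.1.2 _ p.1.2.2) (hR p.2.2)
  have h1 : finrank K (LinearMap.range Ξ) ≤ finrank K Z₀ := Submodule.finrank_mono hrange
  -- the kernel of `Ξ` injects into the range of `θ`
  let π : LinearMap.ker Ξ →ₗ[K] M × M :=
    ((LinearMap.prodMap Ds.subtype Du.subtype).comp (LinearMap.fst K (Ds × Du) R)).comp
      (LinearMap.ker Ξ).subtype
  have hπ : ∀ p : LinearMap.ker Ξ, π p = ((p.1.1.1 : M), (p.1.1.2 : M)) := fun p => rfl
  have hπinj : Function.Injective π := by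
    intro p q h
    rw [hπ, hπ, Prod.mk.injEq] at h
    have hp : Ξ p.1 = 0 := p.2
    have hq : Ξ q.1 = 0 := q.2
    rw [hΞ, sub_eq_zero] at hp hq
    apply Subtype.ext
    apply Prod.ext
    · apply Prod.ext
      · exact Subtype.ext h.1
      · exact Subtype.ext h.2
    · apply Subtype.ext
      rw [← hp, ← hq, h.1, h.2]
  have hπrange : LinearMap.range π ≤ LinearMap.range θ := by
    rintro _ ⟨p, rfl⟩
    have hp : Ξ p.1 = 0 := p.2
    rw [hΞ, sub_eq_zero] at hp
    obtain ⟨e, he⟩ := hsurj _ p.1.1.1.2 _ p.1.1.2.2 (by rw [hp]; exact p.1.2.2)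
    exact ⟨e, by rw [he, hπ]⟩
  have h2 : finrank K (LinearMap.ker Ξ) ≤ finrank K E := by
    rw [← LinearMap.finrank_range_of_inj hπinj, ← LinearMap.finrank_range_of_inj hθ]
    exact Submodule.finrank_mono hπrange
  have hrn := LinearMap.finrank_range_add_finrank_ker Ξ
  have hdim : finrank K ((Ds × Du) × R) = finrank K Ds + finrank K Du + finrank K R := by
    rw [Module.finrank_prod, Module.finrank_prod]
  omega

end LinAlg

section Dimensions

variable {G : Type*} [Group G] {X : Type*} [MulAction G X] (K : Type*) [Field K]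

theorem act_eq_of_mem_zpowers {g : G} {f : X → K} (hf : act K g f = f) {h : G}
    (hh : h ∈ Subgroup.zpowers g) : act K h f = f := by
  have : Subgroup.zpowers g ≤
      { carrier := {h : G | act K h f = f}
        mul_mem' := by
          intro a b ha hb
          show act K (a * b) f = f
          rw [act_mul, hb, ha]
        one_mem' := act_one K f
        inv_mem' := by
          intro a ha
          show act K a⁻¹ f = f
          conv_lhs => rw [← ha]
          rw [act_inv_act] } := by
    rw [Subgroup.zpowers_le]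
    exact hf
  exact this hh

/-- The restriction of invariant functions to orbit representatives. -/
def invRes (g : G) :
    LinearMap.ker (opA K g (X := X)) →ₗ[K]
      (MulAction.orbitRel.Quotient (Subgroup.zpowers g) X → K) where
  toFun f o := (f : X → K) (Quotient.out o)
  map_add' _ _ := rfl
  map_smul' _ _ := rfl

theorem invRes_injective (g : G) : Function.Injective (invRes K g (X := X)) := by
  rw [injective_iff_map_eq_zero]
  intro f hf
  apply Subtype.ext
  funext y
  have hinv : act K g (f : X → K) = f := by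
    have := f.2
    rw [LinearMap.mem_ker, opA_apply, sub_eq_zero] at this
    exact this
  set o : MulAction.orbitRel.Quotient (Subgroup.zpowers g) X := Quotient.mk'' y with ho
  have h1 : (f : X → K) (Quotient.out o) = 0 := congrFun hf o
  have h2 : Quotient.out o ∈ MulAction.orbit (Subgroup.zpowers g) y := by
    have := Quotient.exact' (Quotient.out_eq' o)
    exact this
  obtain ⟨h, hh⟩ := h2
  have h3 := congrFun (act_eq_of_mem_zpowers K hinv (Subgroup.inv_mem _ h.2)) y
  rw [act_apply, inv_inv] at h3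
  have h4 : (h : G) • y = Quotient.out o := hh
  rw [h4, h1] at h3
  exact h3.symm

variable [Finite X]

theorem finrank_ker_opA_le (g : G) :
    finrank K (LinearMap.ker (opA K g (X := X))) ≤ orbNum g X := by
  have : Finite (MulAction.orbitRel.Quotient (Subgroup.zpowers g) X) := Quotient.finite _
  have h := LinearMap.finrank_le_finrank_of_injective (invRes_injective K g (X := X))
  rwa [finrank_fun_eq_natCard] at h

/-- **Dimension of `perKer`.** -/
theorem finrank_perKer_add (g : G) :
    finrank K (perKer K g (X := X)) + orbNum g X = Nat.card X := by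
  have h1 := finrank_perKer_add_le (X := X) K g
  have h2 := finrank_range_opA_add (X := X) K g
  have h3 := finrank_ker_opA_le (X := X) K g
  have h4 := Submodule.finrank_mono (range_opA_le_perKer (X := X) K g)
  omega

theorem perKer_eq_range_opA (g : G) :
    perKer K g (X := X) = LinearMap.range (opA K g (X := X)) := by
  symm
  apply Submodule.eq_of_le_of_finrank_eq (range_opA_le_perKer (X := X) K g)
  have h1 := finrank_perKer_add (X := X) K g
  have h2 := finrank_range_opA_add (X := X) K g
  have h3 := finrank_ker_opA_le (X := X) K g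
  have h4 := Submodule.finrank_mono (range_opA_le_perKer (X := X) K g)
  omega

end Dimensions

section Sum

variable {G : Type*} [Group G] {X : Type*} [MulAction G X] [Fintype X] (K : Type*) [Field K]

/-- The sum of all values. -/
def sumL : (X → K) →ₗ[K] K where
  toFun m := ∑ x, m x
  map_add' m n := by simp [Finset.sum_add_distrib]
  map_smul' c m := by simp [Finset.mul_sum]

theorem sumL_apply (m : X → K) : sumL K m = ∑ x, m x := rfl

theorem sumL_act (g : G) (m : X → K) : sumL K (act K g m) = sumL K m := by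
  rw [sumL_apply, sumL_apply]
  exact Equiv.sum_comp (MulAction.toPerm g⁻¹) m

theorem sumL_opA (g : G) (m : X → K) : sumL K (opA K g m) = 0 := by
  rw [opA_apply, map_sub, sumL_act, sub_self]

theorem perKer_le_ker_sumL (g : G) : perKer K g (X := X) ≤ LinearMap.ker (sumL K (X := X)) := by
  rw [perKer_eq_range_opA]
  rintro _ ⟨m, rfl⟩
  rw [LinearMap.mem_ker, sumL_opA]

theorem finrank_ker_sumL_add_one [Nonempty X] :
    finrank K (LinearMap.ker (sumL K (X := X))) + 1 = Nat.card X := by
  classical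
  have hsurj : Function.Surjective (sumL K (X := X)) := by
    intro c
    obtain ⟨x₀⟩ := ‹Nonempty X›
    refine ⟨Pi.single x₀ c, ?_⟩
    rw [sumL_apply, Finset.sum_pi_single']
    simp
  have h1 := LinearMap.finrank_range_add_finrank_ker (sumL K (X := X))
  rw [LinearMap.range_eq_top.mpr hsurj, finrank_top, finrank_self, finrank_fun_eq_natCard] at h1
  omega

end Sum

section Main

variable (Γ : Subgroup SL(2, ℤ)) [Finite (SL(2, ℤ) ⧸ Γ)] (K : Type*) [Field K]

theorem finrank_M0_add_one : finrank K (M0 Γ K) + 1 = Nat.card (SL(2, ℤ) ⧸ Γ) := by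
  classical
  have hsurj : Function.Surjective
      (LinearMap.proj (basePt Γ) : ((SL(2, ℤ) ⧸ Γ) → K) →ₗ[K] K) := by
    intro c
    exact ⟨fun _ => c, rfl⟩
  have h1 := LinearMap.finrank_range_add_finrank_ker
    (LinearMap.proj (basePt Γ) : ((SL(2, ℤ) ⧸ Γ) → K) →ₗ[K] K)
  rw [LinearMap.range_eq_top.mpr hsurj, finrank_top, finrank_self, finrank_fun_eq_natCard] at h1
  have : finrank K (M0 Γ K)
      = finrank K (LinearMap.ker
          (LinearMap.proj (basePt Γ) : ((SL(2, ℤ) ⧸ Γ) → K) →ₗ[K] K)) := rfl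
  omega

/-- **The lower bound.** -/
theorem le_finrank_parab3_add (hneg : (-1 : SL(2, ℤ)) ∈ Γ) :
    Nat.card (SL(2, ℤ) ⧸ Γ) + 2 ≤
      finrank K (parab3 Γ K S T)
        + orbNum (S : SL(2, ℤ)) (SL(2, ℤ) ⧸ Γ) + orbNum (S * T : SL(2, ℤ)) (SL(2, ℤ) ⧸ Γ)
        + orbNum (T : SL(2, ℤ)) (SL(2, ℤ) ⧸ Γ) := by
  classical
  have := Fintype.ofFinite (SL(2, ℤ) ⧸ Γ)
  obtain ⟨hfinV, -⟩ := finrank_parab3_add_le Γ K S T closure_S_ST
  have hfinM0 : Module.Finite K (M0 Γ K) := inferInstance
  have key := finrank_add_le_of_forall_exists (K := K) (M := (SL(2, ℤ) ⧸ Γ) → K)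
    (E := parab3 Γ K S T × M0 Γ K)
    (perKer K (S : SL(2, ℤ))) (perKer K (S * T : SL(2, ℤ))) (perKer K (T : SL(2, ℤ)))
    (LinearMap.ker (sumL K (X := SL(2, ℤ) ⧸ Γ))) (combL Γ K S) ?_ (perKer_le_ker_sumL K T)
    (thetaMap Γ K S T) (thetaMap_injective Γ K S T closure_S_ST) ?_
  · have h1 := finrank_perKer_add (X := SL(2, ℤ) ⧸ Γ) K (S : SL(2, ℤ))
    have h2 := finrank_perKer_add (X := SL(2, ℤ) ⧸ Γ) K (S * T : SL(2, ℤ))
    have h3 := finrank_perKer_add (X := SL(2, ℤ) ⧸ Γ) K (T : SL(2, ℤ))
    have h4 := finrank_ker_sumL_add_one (X := SL(2, ℤ) ⧸ Γ) K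
    have h5 := finrank_M0_add_one Γ K
    have hfree : Module.Free K (parab3 Γ K S T) := Module.Free.of_divisionRing K (parab3 Γ K S T)
    have h6 : finrank K (parab3 Γ K S T × M0 Γ K)
        = finrank K (parab3 Γ K S T) + finrank K (M0 Γ K) := Module.finrank_prod
    omega
  · intro a ha b hb
    rw [LinearMap.mem_ker, combL_apply, sumL_act, map_sub,
      LinearMap.mem_ker.mp (perKer_le_ker_sumL K _ hb),
      LinearMap.mem_ker.mp (perKer_le_ker_sumL K _ ha), sub_zero]
  · intro a ha b hb hab
    obtain ⟨c, hc, hcS, hcU⟩ := exists_isCoc hneg ha (by rw [U_def]; exact hb)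
    have hcT : c T = combL Γ K S (a, b) := by
      have h1 := hc.map_mul S T
      rw [← U_def, hcU, hcS] at h1
      rw [combL_apply]
      show c T = act K S⁻¹ (b - a)
      rw [h1, add_sub_cancel_left, act_inv_act]
    have hex := exists_thetaMap_eq hc S T (by rw [hcS]; exact ha)
      (by rw [← U_def, hcU]; exact hb) (by rw [hcT]; exact hab)
    obtain ⟨e, he⟩ := hex
    refine ⟨e, ?_⟩
    rw [he, hcS, ← U_def, hcU]

/-- **Dimension of the parabolic cohomology**, over any field. -/
theorem finrank_parab3_add_eq (hneg : (-1 : SL(2, ℤ)) ∈ Γ) :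
    finrank K (parab3 Γ K S T)
        + orbNum (S : SL(2, ℤ)) (SL(2, ℤ) ⧸ Γ) + orbNum (S * T : SL(2, ℤ)) (SL(2, ℤ) ⧸ Γ)
        + orbNum (T : SL(2, ℤ)) (SL(2, ℤ) ⧸ Γ) = Nat.card (SL(2, ℤ) ⧸ Γ) + 2 :=
  le_antisymm (finrank_parab3_add_le Γ K S T closure_S_ST).2 (le_finrank_parab3_add Γ K hneg)

end Main

end Fermat.Agent.S27x.Count
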