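/-
P-S27, block G1-COUNT (helper20).  Final count of the characters of a finite index subgroup
`Γ ∋ -1` of `SL(2, ℤ)` that are trivial on parabolic and elliptic elements.

With `X = SL(2, ℤ) ⧸ Γ` and `r + #orb(S) + #orb(S T) + #orb(T) = #X + 2` (so `r = 2 g(Γ)` by the
Riemann–Hurwitz formula for `Γ \ ℍ* → SL(2, ℤ) \ ℍ*`):

* `finrank_homPE_add_eq` : `dim_K Hom_pe(Γ, K) = r` over every field `K` of characteristic `0`;
* `nonempty_PEQuot_addEquiv_general` : `Γ^ab / ⟨parabolic, elliptic, ±1⟩ ≃ ℤ^r`;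
* `card_charPE_general` : `#Hom_pe(Γ, μ_n) = n ^ r`.

No congruence hypothesis and no torsion-freeness is needed.
-/
import Mathlib
import Fermat.Agent.S27x.Count.LowerBound
import Fermat.Agent.Gateway.A2.CountPE
import Fermat.Agent.Gateway.A2.Final
import Fermat.Agent.Gateway.Theta.PE

set_option autoImplicit false

noncomputable section

namespace Fermat.Agent.S27x.Count

open scoped MatrixGroups
open ModularGroup Fermat.Agent.Gateway.A2 Fermat.Agent.Gateway.A2.Count Module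

section Compare

variable (Γ : Subgroup SL(2, ℤ)) (K : Type*) [Field K] [CharZero K]

/-- A character with values in a field of characteristic `0` kills elements of finite order. -/
theorem map_eq_zero_of_pow_eq_one (φ : Additive Γ →+ K) (γ : Γ) {n : ℕ} (hn : 0 < n)
    (h : γ ^ n = 1) : φ (Additive.ofMul γ) = 0 := by
  have h0 : n • φ (Additive.ofMul γ) = 0 := by
    rw [← map_nsmul, ← ofMul_pow, h, ofMul_one, map_zero]
  rw [nsmul_eq_mul] at h0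
  rcases mul_eq_zero.mp h0 with h1 | h1
  · exact absurd (Nat.cast_eq_zero.mp h1) hn.ne'
  · exact h1

omit [CharZero K] in
/-- A character in `parab T` kills every conjugate of an integral power of `T` lying in `Γ`. -/
theorem map_conj_T_zpow_eq_zero {φ : Additive Γ →+ K} (hφ : φ ∈ parab Γ K (T : SL(2, ℤ)))
    (g : SL(2, ℤ)) (k : ℤ) (h : g⁻¹ * T ^ k * g ∈ Γ) : φ (Additive.ofMul ⟨_, h⟩) = 0 := by
  rcases Int.eq_nat_or_neg k with ⟨n, rfl | rfl⟩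
  · have h' : g⁻¹ * T ^ n * (g⁻¹)⁻¹ ∈ Γ := by
      rw [inv_inv]
      rw [zpow_natCast] at h
      exact h
    have := hφ g⁻¹ n h'
    convert this using 3
    apply Subtype.ext
    simp
  · have h' : g⁻¹ * T ^ n * (g⁻¹)⁻¹ ∈ Γ := by
      rw [inv_inv]
      have h2 := Γ.inv_mem h
      rw [mul_inv_rev, mul_inv_rev, inv_inv, ← zpow_neg, neg_neg, zpow_natCast, ← mul_assoc] at h2
      exact h2
    have h3 := hφ g⁻¹ n h'
    have h4 : (⟨g⁻¹ * T ^ (-(n : ℤ)) * g, h⟩ : Γ) = (⟨g⁻¹ * T ^ n * (g⁻¹)⁻¹, h'⟩ : Γ)⁻¹ := by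
      apply Subtype.ext
      show g⁻¹ * T ^ (-(n : ℤ)) * g = (g⁻¹ * T ^ n * (g⁻¹)⁻¹)⁻¹
      rw [inv_inv, mul_inv_rev, mul_inv_rev, inv_inv, zpow_neg, zpow_natCast, mul_assoc]
    rw [h4, ofMul_inv, map_neg, h3, neg_zero]

/-- **Over a field of characteristic `0`, `Hom_pe` is cut out by the three conjugacy conditions.** -/
theorem homPE_eq_parab3 (hneg : (-1 : SL(2, ℤ)) ∈ Γ) : homPE K Γ K = parab3 Γ K S T := by
  apply le_antisymm (homPE_le_parab3 K Γ)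
  intro φ hφ γ hγ
  have hT : φ ∈ parab Γ K (T : SL(2, ℤ)) := ((mem_parab3 Γ K).mp hφ).2
  unfold IsPE at hγ
  rcases lt_or_eq_of_le hγ with hlt | heq
  · refine map_eq_zero_of_pow_eq_one Γ K φ γ (n := 12) (by norm_num) ?_
    apply Subtype.ext
    rw [Subgroup.coe_pow, Subgroup.coe_one]
    exact sl2_pow_twelve _ hlt
  · obtain ⟨g, k, hk | hk⟩ := Fermat.Agent.Gateway.Theta.exists_conj_T_zpow (γ : SL(2, ℤ)) heq
    · have hmem : g⁻¹ * T ^ k * g ∈ Γ := by rw [← hk]; exact γ.2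
      have := map_conj_T_zpow_eq_zero Γ K hT g k hmem
      convert this using 3
      exact Subtype.ext hk
    · have hmem : g⁻¹ * T ^ k * g ∈ Γ := by
        have : g⁻¹ * T ^ k * g = -1 * (γ : SL(2, ℤ)) := by rw [hk]; simp
        rw [this]
        exact Γ.mul_mem hneg γ.2
      have h1 := map_conj_T_zpow_eq_zero Γ K hT g k hmem
      have h2 : φ (Additive.ofMul (⟨-1, hneg⟩ : Γ)) = 0 := by
        refine map_eq_zero_of_pow_eq_one Γ K φ _ (n := 2) (by norm_num) ?_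
        apply Subtype.ext
        show (-1 : SL(2, ℤ)) ^ 2 = 1
        decide
      have h3 : γ = (⟨-1, hneg⟩ : Γ) * ⟨g⁻¹ * T ^ k * g, hmem⟩ := by
        apply Subtype.ext
        show (γ : SL(2, ℤ)) = -1 * (g⁻¹ * T ^ k * g)
        rw [hk]
        simp
      rw [h3, ofMul_mul, map_add, h1, h2, add_zero]

variable [Finite (SL(2, ℤ) ⧸ Γ)]

/-- **Dimension of `Hom_pe(Γ, K)` in characteristic `0`.** -/
theorem finrank_homPE_add_eq (hneg : (-1 : SL(2, ℤ)) ∈ Γ) :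
    finrank K (homPE K Γ K)
        + orbNum (S : SL(2, ℤ)) (SL(2, ℤ) ⧸ Γ) + orbNum (S * T : SL(2, ℤ)) (SL(2, ℤ) ⧸ Γ)
        + orbNum (T : SL(2, ℤ)) (SL(2, ℤ) ⧸ Γ) = Nat.card (SL(2, ℤ) ⧸ Γ) + 2 := by
  rw [homPE_eq_parab3 Γ K hneg]
  exact finrank_parab3_add_eq Γ K hneg

end Compare

section Final

variable (Γ : Subgroup SL(2, ℤ)) [Γ.FiniteIndex]

/-- The number `r = 2 g(Γ)`: `r + #orb(S) + #orb(S T) + #orb(T) = #(SL(2, ℤ) ⧸ Γ) + 2`. -/
def peRank : ℕ := finrank ℂ (homPE ℂ Γ ℂ)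

theorem peRank_add_eq (hneg : (-1 : SL(2, ℤ)) ∈ Γ) :
    peRank Γ
        + orbNum (S : SL(2, ℤ)) (SL(2, ℤ) ⧸ Γ) + orbNum (S * T : SL(2, ℤ)) (SL(2, ℤ) ⧸ Γ)
        + orbNum (T : SL(2, ℤ)) (SL(2, ℤ) ⧸ Γ) = Nat.card (SL(2, ℤ) ⧸ Γ) + 2 :=
  finrank_homPE_add_eq Γ ℂ hneg

theorem finrank_homPE_zmod_le (hneg : (-1 : SL(2, ℤ)) ∈ Γ) (l : ℕ) [Fact l.Prime] :
    finrank (ZMod l) (homPE (ZMod l) Γ (ZMod l)) ≤ peRank Γ := by
  have h1 := (finrank_homPE_add_le (ZMod l) Γ).2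
  have h2 := peRank_add_eq Γ hneg
  omega

/-- **`Γ^ab / ⟨parabolic, elliptic, ±1⟩` is free of rank `peRank Γ`.** -/
theorem nonempty_PEQuot_addEquiv_general (hneg : (-1 : SL(2, ℤ)) ∈ Γ) :
    Nonempty (Additive (PEQuot Γ) ≃+ (Fin (peRank Γ) →₀ ℤ)) :=
  nonempty_PEQuot_addEquiv Γ (peRank Γ) rfl (fun l _ => finrank_homPE_zmod_le Γ hneg l)

/-- **The count of characters**, for an arbitrary finite index subgroup `Γ ∋ -1`. -/
theorem card_charPE_general (hneg : (-1 : SL(2, ℤ)) ∈ Γ) (n : ℕ) [NeZero n] :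
    Nat.card (charPE Γ (rootsOfUnity n ℂ)) = n ^ peRank Γ :=
  card_charPE_rootsOfUnity Γ (peRank Γ) rfl (fun l _ => finrank_homPE_zmod_le Γ hneg l) n

theorem card_homPE_zmod_general (hneg : (-1 : SL(2, ℤ)) ∈ Γ) (n : ℕ) [NeZero n] :
    Nat.card (homPE (ZMod n) Γ (ZMod n)) = n ^ peRank Γ :=
  card_homPE_zmod Γ (peRank Γ) rfl (fun l _ => finrank_homPE_zmod_le Γ hneg l) n

/-- Packaged form: there is `r` with the Riemann–Hurwitz relation and the count. -/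
theorem exists_rank_card_charPE (hneg : (-1 : SL(2, ℤ)) ∈ Γ) :
    ∃ r : ℕ,
      r + orbNum (S : SL(2, ℤ)) (SL(2, ℤ) ⧸ Γ) + orbNum (S * T : SL(2, ℤ)) (SL(2, ℤ) ⧸ Γ)
        + orbNum (T : SL(2, ℤ)) (SL(2, ℤ) ⧸ Γ) = Nat.card (SL(2, ℤ) ⧸ Γ) + 2 ∧
      ∀ (n : ℕ) [NeZero n], Nat.card (charPE Γ (rootsOfUnity n ℂ)) = n ^ r :=
  ⟨peRank Γ, peRank_add_eq Γ hneg, fun n _ => card_charPE_general Γ hneg n⟩

end Final

end Fermat.Agent.S27x.Count
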